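/-
S41 (level raising), PAIR package (helper33), leaf (S0).

* `exists_sub_eq_of_period_sums` (PERIOD): for a permutation `σ` all of whose points are periodic,
  a function `f` whose sum over every period vanishes is of the form `n ∘ σ - n`
  (no division; coefficients in any abelian group).
* `exists_decomp_of_sum_eq_zero` (AUG): for a finite set with two permutations `s, t` generating
  a transitive group, every integer function of total sum `0` is `(a ∘ s - a) + (b ∘ t - b)`.
-/
import Mathlib

set_option autoImplicit false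

namespace Fermat.Agent.S41.H33

section period

variable {X A : Type*} [AddCommGroup A]

/-- Partial sums along an orbit only depend on the end point, if all period sums vanish. -/
theorem sum_range_eq_of_pow_eq (σ : Equiv.Perm X) (f : X → A)
    (hf : ∀ (x : X) (w : ℕ), (σ ^ w) x = x → ∑ j ∈ Finset.range w, f ((σ ^ j) x) = 0)
    (y : X) {a b : ℕ} (hab : (σ ^ a) y = (σ ^ b) y) :
    ∑ j ∈ Finset.range a, f ((σ ^ j) y) = ∑ j ∈ Finset.range b, f ((σ ^ j) y) := by
  wlog h : a ≤ b generalizing a b
  · exact (this hab.symm (le_of_not_ge h)).symm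
  obtain ⟨d, rfl⟩ := Nat.exists_eq_add_of_le h
  rw [Finset.sum_range_add]
  have h1 : (σ ^ d) ((σ ^ a) y) = (σ ^ a) y := by
    rw [← Equiv.Perm.mul_apply, ← pow_add, add_comm d a]
    exact hab.symm
  have h2 := hf ((σ ^ a) y) d h1
  have h3 : ∑ j ∈ Finset.range d, f ((σ ^ (a + j)) y) =
      ∑ j ∈ Finset.range d, f ((σ ^ j) ((σ ^ a) y)) := by
    refine Finset.sum_congr rfl fun j _ => ?_
    rw [← Equiv.Perm.mul_apply, ← pow_add, add_comm j a]
  rw [h3, h2, add_zero]

/-- **PERIOD lemma**: if every point is `σ`-periodic and `f` has zero sum over every period, then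
`f = n ∘ σ - n`. -/
theorem exists_sub_eq_of_period_sums (σ : Equiv.Perm X)
    (hper : ∀ x, ∃ w : ℕ, 0 < w ∧ (σ ^ w) x = x) (f : X → A)
    (hf : ∀ (x : X) (w : ℕ), (σ ^ w) x = x → ∑ j ∈ Finset.range w, f ((σ ^ j) x) = 0) :
    ∃ n : X → A, ∀ x, n (σ x) - n x = f x := by
  classical
  -- the orbit relation
  let r : X → X → Prop := fun x y => ∃ k : ℕ, (σ ^ k) x = y
  have hr : Equivalence r := by
    refine ⟨fun x => ⟨0, by simp⟩, ?_, ?_⟩
    · rintro x y ⟨k, rfl⟩
      obtain ⟨w, hw, hwx⟩ := hper x
      refine ⟨k * (w - 1), ?_⟩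
      rw [← Equiv.Perm.mul_apply, ← pow_add]
      have e : k * (w - 1) + k = w * k := by
        obtain ⟨w', rfl⟩ : ∃ w', w = w' + 1 := ⟨w - 1, by omega⟩
        simp only [Nat.add_sub_cancel]
        ring
      rw [e, pow_mul]
      have : ∀ m : ℕ, ((σ ^ w) ^ m) x = x := by
        intro m
        induction m with
        | zero => simp
        | succ m ih => rw [pow_succ, Equiv.Perm.mul_apply, hwx, ih]
      exact this k
    · rintro x y z ⟨k, rfl⟩ ⟨l, rfl⟩
      exact ⟨l + k, by rw [pow_add, Equiv.Perm.mul_apply]⟩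
  let s : Setoid X := ⟨r, hr⟩
  let rp : X → X := fun x => (Quotient.mk s x).out
  have hrp : ∀ x, ∃ k : ℕ, (σ ^ k) (rp x) = x := fun x =>
    Quotient.exact (Quotient.out_eq (Quotient.mk s x))
  choose k hk using hrp
  have hrpσ : ∀ x, rp (σ x) = rp x := by
    intro x
    have : Quotient.mk s (σ x) = Quotient.mk s x :=
      Quotient.sound (hr.symm ⟨1, by simp⟩)
    show (Quotient.mk s (σ x)).out = (Quotient.mk s x).out
    rw [this]
  refine ⟨fun x => ∑ j ∈ Finset.range (k x), f ((σ ^ j) (rp x)), fun x => ?_⟩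
  have h1 : (σ ^ (k (σ x))) (rp x) = (σ ^ (k x + 1)) (rp x) := by
    have := hk (σ x)
    rw [hrpσ] at this
    rw [this, pow_succ', Equiv.Perm.mul_apply, hk x]
  show ∑ j ∈ Finset.range (k (σ x)), f ((σ ^ j) (rp (σ x))) -
    ∑ j ∈ Finset.range (k x), f ((σ ^ j) (rp x)) = f x
  rw [hrpσ, sum_range_eq_of_pow_eq σ f hf (rp x) h1, Finset.sum_range_succ, hk x]
  abel

end period

section aug

variable {X : Type*} [Fintype X]

/-- **AUG**: if the group generated by `s` and `t` is transitive on the finite set `X`, every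
integer-valued function with zero total sum is `(a ∘ s - a) + (b ∘ t - b)`. -/
theorem exists_decomp_of_sum_eq_zero (s t : Equiv.Perm X)
    (htrans : ∀ x y : X, ∃ g ∈ Subgroup.closure ({s, t} : Set (Equiv.Perm X)), g x = y)
    (f : X → ℤ) (hf : ∑ x, f x = 0) :
    ∃ a b : X → ℤ, ∀ x, f x = (a (s x) - a x) + (b (t x) - b x) := by
  classical
  -- the subgroup of decomposable functions
  let I : AddSubgroup (X → ℤ) :=
    { carrier := {f | ∃ a b : X → ℤ, ∀ x, f x = (a (s x) - a x) + (b (t x) - b x)}
      zero_mem' := ⟨0, 0, fun x => by simp⟩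
      add_mem' := by
        rintro f g ⟨a, b, hab⟩ ⟨a', b', hab'⟩
        refine ⟨a + a', b + b', fun x => ?_⟩
        simp only [Pi.add_apply, hab x, hab' x]
        ring
      neg_mem' := by
        rintro f ⟨a, b, hab⟩
        refine ⟨-a, -b, fun x => ?_⟩
        simp only [Pi.neg_apply, hab x]
        ring }
  have hgen : ∀ g ∈ Subgroup.closure ({s, t} : Set (Equiv.Perm X)), ∀ x : X,
      (Pi.single (g x) (1 : ℤ) - Pi.single x 1 : X → ℤ) ∈ I := by
    intro g hg
    induction hg using Subgroup.closure_induction with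
    | mem g hg =>
      intro x
      rcases hg with rfl | rfl
      · refine ⟨-Pi.single (g x) 1, 0, fun y => ?_⟩
        simp only [Pi.sub_apply, Pi.neg_apply, Pi.zero_apply, sub_self, add_zero,
          Pi.single_apply, EmbeddingLike.apply_eq_iff_eq]
        ring
      · refine ⟨0, -Pi.single (g x) 1, fun y => ?_⟩
        simp only [Pi.sub_apply, Pi.neg_apply, Pi.zero_apply, sub_self, zero_add,
          Pi.single_apply, EmbeddingLike.apply_eq_iff_eq]
        ring
    | one => intro x; simp
    | mul g h _ _ hg hh =>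
      intro x
      have := I.add_mem (hg (h x)) (hh x)
      rwa [sub_add_sub_cancel] at this
    | inv g _ hg =>
      intro x
      have := I.neg_mem (hg (g⁻¹ x))
      rw [neg_sub] at this
      simpa using this
  rcases isEmpty_or_nonempty X with hX | ⟨⟨x₀⟩⟩
  · exact ⟨0, 0, fun x => (hX.false x).elim⟩
  have key : f = ∑ x, f x • (Pi.single x (1 : ℤ) - Pi.single x₀ 1 : X → ℤ) := by
    funext y
    simp only [Finset.sum_apply, Pi.smul_apply, Pi.sub_apply, smul_eq_mul, mul_sub,
      Finset.sum_sub_distrib, Pi.single_apply, mul_ite, mul_one, mul_zero]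
    rw [Finset.sum_ite_eq Finset.univ y f]
    have h2 : ∑ x, (if y = x₀ then f x else 0) = 0 := by
      split_ifs
      · exact hf
      · simp
    rw [h2]
    simp
  have hmem : f ∈ I := by
    rw [key]
    refine I.sum_mem fun x _ => I.zsmul_mem ?_ _
    obtain ⟨g, hg, hgx⟩ := htrans x₀ x
    have := hgen g hg x₀
    rwa [hgx] at this
  exact hmem

end aug

end Fermat.Agent.S41.H33
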