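/-
S41 (level raising), PAIR package (helper33), leaf (S1): normal forms of Shapiro cocycles.

Conventions = landed `S16.H97`: `Cos Γ = SL(2,ℤ) ⧸ Γ` (left cosets, left action),
`IsCoc Γ c : c (g * h) x = c g (h • x) + c h x`, `homOfCoc`, `cocOf`, `U = S * T`.

* `exists_Tnorm`: a parabolic `φ : Γ → A` is `homOfCoc c` for a cocycle with `c T = 0`.
* `exists_Upot`: a `φ : Γ → A` killing the elements of finite order is `homOfCoc c` for a cocycle
  with `c U = 0` and `c S x = Q (S • x) - Q x` for a "potential" `Q`.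
No division; `A` is an arbitrary abelian group.
-/
import Fermat.Agent.S16.H97.Lift
import Fermat.Prelude.Def_ModularCurve_PeriodMap
import Fermat.Agent.S41.H33.Period

set_option autoImplicit false

open scoped MatrixGroups
open ModularGroup ModularCurve.Period
open Fermat.Agent.S16.H97

namespace Fermat.Agent.S41.H33

noncomputable section

variable {Γ : Subgroup SL(2, ℤ)} {A : Type*} [AddCommGroup A]

/-- The coboundary of a function on the coset space. -/
def cob (n : Cos Γ → A) (g : SL(2, ℤ)) (x : Cos Γ) : A := n (g • x) - n x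

theorem cob_isCoc (n : Cos Γ → A) : IsCoc Γ (cob n) := by
  intro g h x
  simp only [cob, mul_smul]
  abel

theorem homOfCoc_cob (n : Cos Γ → A) : homOfCoc (cob n) (cob_isCoc n) = 0 := by
  refine AddMonoidHom.ext fun γ => ?_
  change cob n ((Additive.toMul γ : Γ) : SL(2, ℤ)) (base Γ) = 0
  simp only [cob, smul_base_of_mem (Additive.toMul γ).2, sub_self]

theorem isCoc_sub {c c' : SL(2, ℤ) → Cos Γ → A} (hc : IsCoc Γ c) (hc' : IsCoc Γ c') :
    IsCoc Γ (fun g x => c g x - c' g x) := by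
  intro g h x
  simp only [hc g h x, hc' g h x]
  abel

theorem homOfCoc_sub {c c' : SL(2, ℤ) → Cos Γ → A} (hc : IsCoc Γ c) (hc' : IsCoc Γ c') :
    homOfCoc (fun g x => c g x - c' g x) (isCoc_sub hc hc') = homOfCoc c hc - homOfCoc c' hc' :=
  rfl

theorem conj_mem_of_smul_eq (g : SL(2, ℤ)) (x : Cos Γ) (hx : g • x = x) :
    (rep Γ x)⁻¹ * g * rep Γ x ∈ Γ := by
  apply mem_of_smul_base
  rw [mul_smul, mul_smul, rep_smul_base, hx, inv_smul_eq_iff, rep_smul_base]

/-- The sum of a cocycle along a closed orbit is a value of the attached homomorphism. -/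
theorem period_sum_eq {c : SL(2, ℤ) → Cos Γ → A} (hc : IsCoc Γ c) (g : SL(2, ℤ)) (w : ℕ)
    (x : Cos Γ) (hx : g ^ w • x = x) :
    ∑ j ∈ Finset.range w, c g (g ^ j • x) =
      homOfCoc c hc (Additive.ofMul ⟨(rep Γ x)⁻¹ * g ^ w * rep Γ x,
        conj_mem_of_smul_eq (g ^ w) x hx⟩) := by
  rw [← hc.pow, homOfCoc_conj c hc (g ^ w) (rep Γ x), rep_smul_base]

theorem toPerm_pow_apply (g : SL(2, ℤ)) (j : ℕ) (x : Cos Γ) :
    ((MulAction.toPerm g : Equiv.Perm (Cos Γ)) ^ j) x = g ^ j • x := by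
  induction j generalizing x with
  | zero => simp
  | succ j ih => rw [pow_succ, Equiv.Perm.mul_apply, ih, pow_succ, mul_smul]; rfl

theorem exists_period [Finite (Cos Γ)] (g : SL(2, ℤ)) (x : Cos Γ) :
    ∃ w : ℕ, 0 < w ∧ ((MulAction.toPerm g : Equiv.Perm (Cos Γ)) ^ w) x = x := by
  refine ⟨orderOf (MulAction.toPerm g : Equiv.Perm (Cos Γ)), (isOfFinOrder_of_finite _).orderOf_pos,
    ?_⟩
  rw [pow_orderOf_eq_one]
  rfl

theorem conj_pow_eq (r g : SL(2, ℤ)) (n : ℕ) : (r⁻¹ * g * r) ^ n = r⁻¹ * g ^ n * r := by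
  induction n with
  | zero => simp
  | succ n ih => rw [pow_succ, ih, pow_succ]; group

theorem trace_conj_T_pow (r : SL(2, ℤ)) (w : ℕ) :
    ((r⁻¹ * T ^ w * r : SL(2, ℤ)) : Matrix (Fin 2) (Fin 2) ℤ).trace = 2 := by
  rw [mul_assoc, Matrix.SpecialLinearGroup.coe_mul, Matrix.trace_mul_comm,
    ← Matrix.SpecialLinearGroup.coe_mul, mul_assoc, mul_inv_cancel, mul_one,
    ← zpow_natCast, ModularGroup.coe_T_zpow]
  simp [Matrix.trace_fin_two_of]

/-- **T-normal form.** -/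
theorem exists_Tnorm [Finite (Cos Γ)] (φ : Additive Γ →+ A) (hφ : IsParabolicHom Γ φ) :
    ∃ (c : SL(2, ℤ) → Cos Γ → A) (hc : IsCoc Γ c), c T = 0 ∧ homOfCoc c hc = φ := by
  have hc₀ : IsCoc Γ (cocOf Γ φ) := cocOf_isCoc φ
  obtain ⟨n, hn⟩ := exists_sub_eq_of_period_sums (MulAction.toPerm T : Equiv.Perm (Cos Γ))
    (exists_period T) (cocOf Γ φ T) (by
      intro x w hx
      rw [toPerm_pow_apply] at hx
      simp only [toPerm_pow_apply]
      rw [period_sum_eq hc₀ T w x hx, homOfCoc_cocOf]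
      apply hφ
      show ((rep Γ x)⁻¹ * T ^ w * rep Γ x : SL(2, ℤ)).1.trace ^ 2 = 4
      rw [trace_conj_T_pow]
      norm_num)
  refine ⟨fun g x => cocOf Γ φ g x - cob n g x, isCoc_sub hc₀ (cob_isCoc n), ?_, ?_⟩
  · funext x
    have := hn x
    simp only [MulAction.toPerm_apply] at this
    simp only [cob, Pi.zero_apply]
    rw [this, sub_self]
  · rw [homOfCoc_sub hc₀ (cob_isCoc n), homOfCoc_cocOf, homOfCoc_cob, sub_zero]

theorem U_pow_six : (U ^ 6 : SL(2, ℤ)) = 1 := by decide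

theorem S_pow_four : (S ^ 4 : SL(2, ℤ)) = 1 := by decide

theorem isOfFinOrder_conj_pow {g : SL(2, ℤ)} {k : ℕ} (hk : 0 < k) (hg : g ^ k = 1) (w : ℕ)
    (r : SL(2, ℤ)) (h : r⁻¹ * g ^ w * r ∈ Γ) : IsOfFinOrder (⟨r⁻¹ * g ^ w * r, h⟩ : Γ) := by
  rw [isOfFinOrder_iff_pow_eq_one]
  refine ⟨k, hk, Subtype.ext ?_⟩
  show (r⁻¹ * g ^ w * r) ^ k = 1
  rw [conj_pow_eq, ← pow_mul, mul_comm, pow_mul, hg, one_pow, mul_one, inv_mul_cancel]

/-- **U-potential.** -/
theorem exists_Upot [Finite (Cos Γ)] (φ : Additive Γ →+ A)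
    (hfin : ∀ γ : Γ, IsOfFinOrder γ → φ (Additive.ofMul γ) = 0) :
    ∃ (c : SL(2, ℤ) → Cos Γ → A) (hc : IsCoc Γ c) (Q : Cos Γ → A),
      c U = 0 ∧ (∀ x, c S x = Q (S • x) - Q x) ∧ homOfCoc c hc = φ := by
  have hc₀ : IsCoc Γ (cocOf Γ φ) := cocOf_isCoc φ
  obtain ⟨n, hn⟩ := exists_sub_eq_of_period_sums (MulAction.toPerm U : Equiv.Perm (Cos Γ))
    (exists_period U) (cocOf Γ φ U) (by
      intro x w hx
      rw [toPerm_pow_apply] at hx
      simp only [toPerm_pow_apply]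
      rw [period_sum_eq hc₀ U w x hx, homOfCoc_cocOf]
      exact hfin _ (isOfFinOrder_conj_pow (by norm_num) U_pow_six w _ _))
  have hc : IsCoc Γ (fun g x => cocOf Γ φ g x - cob n g x) := isCoc_sub hc₀ (cob_isCoc n)
  have hφc : homOfCoc _ hc = φ := by
    rw [homOfCoc_sub hc₀ (cob_isCoc n), homOfCoc_cocOf, homOfCoc_cob, sub_zero]
  obtain ⟨Q, hQ⟩ := exists_sub_eq_of_period_sums (MulAction.toPerm S : Equiv.Perm (Cos Γ))
    (exists_period S) (fun x => cocOf Γ φ S x - cob n S x) (by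
      intro x w hx
      rw [toPerm_pow_apply] at hx
      simp only [toPerm_pow_apply]
      rw [period_sum_eq hc S w x hx, hφc]
      exact hfin _ (isOfFinOrder_conj_pow (by norm_num) S_pow_four w _ _))
  refine ⟨_, hc, Q, ?_, fun x => ?_, hφc⟩
  · funext x
    have := hn x
    simp only [MulAction.toPerm_apply] at this
    simp only [cob, Pi.zero_apply]
    rw [this, sub_self]
  · have := hQ x
    simp only [MulAction.toPerm_apply] at this
    exact this.symm

/-- Integer-valued homomorphisms kill the elements of finite order. -/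
theorem map_eq_zero_of_isOfFinOrder (φ : Additive Γ →+ ℤ) (γ : Γ) (h : IsOfFinOrder γ) :
    φ (Additive.ofMul γ) = 0 := by
  obtain ⟨n, hn, hγ⟩ := isOfFinOrder_iff_pow_eq_one.mp h
  have h1 : n • φ (Additive.ofMul γ) = 0 := by
    rw [← map_nsmul, ← ofMul_pow, hγ, ofMul_one, map_zero]
  rcases smul_eq_zero.mp h1 with h2 | h2
  · exact absurd h2 hn.ne'
  · exact h2

end

end Fermat.Agent.S41.H33
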