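/-
S41 (level raising), PAIR package (helper33), leaf (S2): the Heisenberg lift.

For two cocycles `c₁, c₂ : SL(2,ℤ) → Cos Γ → R` (`R` a commutative ring, conventions of the landed
`S16.H97`) with `c₁ (-1) = 0`, `c₂ U = 0`, `c₂ S x = Q (S • x) - Q x`, there is
`ζ : SL(2,ℤ) → Cos Γ → R` with
  `ζ (g * h) x = ζ g (h • x) + ζ h x + c₁ h x * c₂ g (h • x)`,
  `ζ S x = c₁ S x * Q (S • x)`,  `ζ U = 0`.
Proof: universal property of `PSL(2,ℤ) = C₂ * C₃` (landed `exists_monoidHom_S_ST`) applied to a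
Heisenberg-type group of permutations of `Cos Γ × R × R × R`.  No division.
-/
import Fermat.Agent.S41.H33.NormalForm

set_option autoImplicit false

open scoped MatrixGroups
open ModularGroup ModularCurve.Period
open Fermat.Agent.S16.H97

namespace Fermat.Agent.S41.H33

noncomputable section

variable {Γ : Subgroup SL(2, ℤ)} {R : Type*} [CommRing R]

/-- The permutation `(x, t₁, t₂, t₃) ↦ (g • x, t₁ + v₁ x, t₂ + v₂ x, t₃ + z x + t₁ * v₂ x)`. -/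
def heis (g : SL(2, ℤ)) (v₁ v₂ z : Cos Γ → R) : Equiv.Perm (Cos Γ × R × R × R) where
  toFun p := (g • p.1, p.2.1 + v₁ p.1, p.2.2.1 + v₂ p.1, p.2.2.2 + z p.1 + p.2.1 * v₂ p.1)
  invFun p := (g⁻¹ • p.1, p.2.1 - v₁ (g⁻¹ • p.1), p.2.2.1 - v₂ (g⁻¹ • p.1),
    p.2.2.2 - z (g⁻¹ • p.1) - (p.2.1 - v₁ (g⁻¹ • p.1)) * v₂ (g⁻¹ • p.1))
  left_inv p := by
    obtain ⟨x, t₁, t₂, t₃⟩ := p
    simp only [inv_smul_smul, add_sub_cancel_right]
    refine Prod.ext rfl (Prod.ext rfl (Prod.ext rfl ?_))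
    simp only
    ring
  right_inv p := by
    obtain ⟨x, t₁, t₂, t₃⟩ := p
    simp only [smul_inv_smul, sub_add_cancel]
    refine Prod.ext rfl (Prod.ext rfl (Prod.ext rfl ?_))
    simp only
    ring

theorem heis_apply (g : SL(2, ℤ)) (v₁ v₂ z : Cos Γ → R) (p : Cos Γ × R × R × R) :
    heis g v₁ v₂ z p =
      (g • p.1, p.2.1 + v₁ p.1, p.2.2.1 + v₂ p.1, p.2.2.2 + z p.1 + p.2.1 * v₂ p.1) := rfl

theorem heis_mul (g h : SL(2, ℤ)) (v₁ v₂ z w₁ w₂ ξ : Cos Γ → R) :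
    heis g v₁ v₂ z * heis h w₁ w₂ ξ =
      heis (g * h) (fun x => v₁ (h • x) + w₁ x) (fun x => v₂ (h • x) + w₂ x)
        (fun x => z (h • x) + ξ x + w₁ x * v₂ (h • x)) := by
  refine Equiv.ext fun p => ?_
  obtain ⟨x, t₁, t₂, t₃⟩ := p
  rw [Equiv.Perm.mul_apply, heis_apply, heis_apply, heis_apply]
  refine Prod.ext (mul_smul g h x).symm (Prod.ext ?_ (Prod.ext ?_ ?_))
  · simp only; ring
  · simp only; ring
  · simp only; ring

theorem heis_one : heis (1 : SL(2, ℤ)) (0 : Cos Γ → R) 0 0 = 1 := by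
  refine Equiv.ext fun p => ?_
  rw [heis_apply]
  simp

theorem heis_neg_one (hneg : (-1 : SL(2, ℤ)) ∈ Γ) :
    heis (-1 : SL(2, ℤ)) (0 : Cos Γ → R) 0 0 = 1 := by
  refine Equiv.ext fun p => ?_
  rw [heis_apply, neg_one_smul_cos hneg]
  simp

theorem heis_injective (g : SL(2, ℤ)) {v₁ v₂ z w₁ w₂ ξ : Cos Γ → R}
    (h : heis g v₁ v₂ z = heis g w₁ w₂ ξ) : v₁ = w₁ ∧ v₂ = w₂ ∧ z = ξ := by
  have key : ∀ x : Cos Γ, v₁ x = w₁ x ∧ v₂ x = w₂ x ∧ z x = ξ x := by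
    intro x
    have h1 := DFunLike.congr_fun h (x, (0 : R), (0 : R), (0 : R))
    rw [heis_apply, heis_apply] at h1
    simp only [zero_add, zero_mul, add_zero, Prod.mk.injEq, true_and] at h1
    exact h1
  exact ⟨funext fun x => (key x).1, funext fun x => (key x).2.1, funext fun x => (key x).2.2⟩

theorem heis_inv (g : SL(2, ℤ)) (v₁ v₂ z : Cos Γ → R) :
    (heis g v₁ v₂ z)⁻¹ = heis g⁻¹ (fun x => - v₁ (g⁻¹ • x)) (fun x => - v₂ (g⁻¹ • x))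
      (fun x => - z (g⁻¹ • x) + v₁ (g⁻¹ • x) * v₂ (g⁻¹ • x)) := by
  rw [inv_eq_iff_mul_eq_one, heis_mul, mul_inv_cancel]
  have e1 : (fun x : Cos Γ => v₁ (g⁻¹ • x) + -v₁ (g⁻¹ • x)) = 0 := by funext x; simp
  have e2 : (fun x : Cos Γ => v₂ (g⁻¹ • x) + -v₂ (g⁻¹ • x)) = 0 := by funext x; simp
  have e3 : (fun x : Cos Γ => z (g⁻¹ • x) + (-z (g⁻¹ • x) + v₁ (g⁻¹ • x) * v₂ (g⁻¹ • x)) +
      -v₁ (g⁻¹ • x) * v₂ (g⁻¹ • x)) = 0 := by funext x; simp only [Pi.zero_apply]; ring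
  rw [e1, e2, e3, heis_one]

/-- **The Heisenberg lift.** -/
theorem exists_zeta (hneg : (-1 : SL(2, ℤ)) ∈ Γ) {c₁ c₂ : SL(2, ℤ) → Cos Γ → R}
    (h₁ : IsCoc Γ c₁) (h₂ : IsCoc Γ c₂) (h₁neg : ∀ x, c₁ (-1) x = 0) (hU : c₂ U = 0)
    (Q : Cos Γ → R) (hQ : ∀ x, c₂ S x = Q (S • x) - Q x) :
    ∃ ζ : SL(2, ℤ) → Cos Γ → R,
      (∀ g h x, ζ (g * h) x = ζ g (h • x) + ζ h x + c₁ h x * c₂ g (h • x)) ∧
      (∀ x, ζ S x = c₁ S x * Q (S • x)) ∧ ζ U = 0 := by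
  have hSS : ∀ x : Cos Γ, c₁ S (S • x) + c₁ S x = 0 := by
    intro x
    rw [← h₁ S S x, S_mul_S, h₁neg]
  have hUUU : ∀ x : Cos Γ, c₁ U (U • U • x) + c₁ U (U • x) + c₁ U x = 0 := by
    intro x
    have := h₁ (U * U) U x
    rw [h₁ U U (U • x), show U * U * U = U ^ 3 by rw [pow_succ, pow_two], U_cube, h₁neg] at this
    exact this.symm
  have hs : (heis S (c₁ S) (c₂ S) (fun x => c₁ S x * Q (S • x)) :
      Equiv.Perm (Cos Γ × R × R × R)) ^ 2 = 1 := by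
    rw [pow_two, heis_mul, S_mul_S]
    have e1 : (fun x : Cos Γ => c₁ S (S • x) + c₁ S x) = 0 := funext hSS
    have e2 : (fun x : Cos Γ => c₂ S (S • x) + c₂ S x) = 0 := by
      funext x
      rw [hQ, hQ, S_smul_S_smul hneg]
      simp
    have e3 : (fun x : Cos Γ => c₁ S (S • x) * Q (S • S • x) + c₁ S x * Q (S • x) +
        c₁ S x * c₂ S (S • x)) = 0 := by
      funext x
      rw [hQ, S_smul_S_smul hneg]
      have := hSS x
      simp only [Pi.zero_apply]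
      linear_combination Q x * this
    rw [e1, e2, e3, heis_neg_one hneg]
  have hu : (heis U (c₁ U) (0 : Cos Γ → R) 0 : Equiv.Perm (Cos Γ × R × R × R)) ^ 3 = 1 := by
    rw [pow_succ, pow_two, heis_mul, heis_mul, show U * U * U = U ^ 3 by rw [pow_succ, pow_two],
      U_cube]
    have e1 : (fun x : Cos Γ => c₁ U (U • U • x) + c₁ U (U • x) + c₁ U x) = 0 := funext hUUU
    have e2 : (fun x : Cos Γ => (0 : Cos Γ → R) (U • U • x) + (0 : Cos Γ → R) (U • x) +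
        (0 : Cos Γ → R) x) = 0 := by funext x; simp
    have e3 : (fun x : Cos Γ => (0 : Cos Γ → R) (U • U • x) + (0 : Cos Γ → R) (U • x) +
        c₁ U (U • x) * (0 : Cos Γ → R) (U • U • x) + (0 : Cos Γ → R) x +
        c₁ U x * ((0 : Cos Γ → R) (U • U • x) + (0 : Cos Γ → R) (U • x))) = 0 := by
      funext x; simp
    rw [e1, e2, e3, heis_neg_one hneg]
  obtain ⟨Φ, hΦS, hΦU⟩ := exists_monoidHom_S_ST _ _ hs hu
  have key : ∀ g : SL(2, ℤ), ∃ v₁ v₂ z : Cos Γ → R, Φ g = heis g v₁ v₂ z := by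
    intro g
    have hg : g ∈ Subgroup.closure ({S, U} : Set SL(2, ℤ)) := by rw [closure_S_U]; trivial
    induction hg using Subgroup.closure_induction with
    | mem x hx =>
      rcases hx with rfl | rfl
      · exact ⟨_, _, _, hΦS⟩
      · exact ⟨_, _, _, hΦU⟩
    | one => exact ⟨0, 0, 0, by rw [map_one, heis_one]⟩
    | mul x y _ _ hx hy =>
      obtain ⟨v₁, v₂, z, hv⟩ := hx
      obtain ⟨w₁, w₂, ξ, hw⟩ := hy
      exact ⟨_, _, _, by rw [map_mul, hv, hw, heis_mul]⟩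
    | inv x _ hx =>
      obtain ⟨v₁, v₂, z, hv⟩ := hx
      exact ⟨_, _, _, by rw [map_inv, hv, heis_inv]⟩
  choose d₁ d₂ ζ hΦ using key
  have hmul : ∀ g h : SL(2, ℤ), d₁ (g * h) = (fun x => d₁ g (h • x) + d₁ h x) ∧
      d₂ (g * h) = (fun x => d₂ g (h • x) + d₂ h x) ∧
      ζ (g * h) = (fun x => ζ g (h • x) + ζ h x + d₁ h x * d₂ g (h • x)) := by
    intro g h
    have h1 := hΦ (g * h)
    rw [map_mul, hΦ g, hΦ h, heis_mul] at h1
    obtain ⟨a, b, c⟩ := heis_injective _ h1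
    exact ⟨a.symm, b.symm, c.symm⟩
  have hd₁ : IsCoc Γ d₁ := fun g h x => congrFun (hmul g h).1 x
  have hd₂ : IsCoc Γ d₂ := fun g h x => congrFun (hmul g h).2.1 x
  obtain ⟨hS1, hS2, hS3⟩ := heis_injective S ((hΦ S).symm.trans hΦS)
  obtain ⟨hU1, hU2, hU3⟩ := heis_injective U ((hΦ U).symm.trans hΦU)
  have e₁ : d₁ = c₁ := hd₁.ext_S_U h₁ hS1 hU1
  have e₂ : d₂ = c₂ := hd₂.ext_S_U h₂ hS2 (hU2.trans hU.symm)
  subst e₁ e₂
  exact ⟨ζ, fun g h x => congrFun (hmul g h).2.2 x, fun x => congrFun hS3 x, hU3⟩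

end

end Fermat.Agent.S41.H33
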