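/-
S41 (level raising), PAIR package (helper33), leaf (S2), second half: evaluation of the
Heisenberg lift.

With `c₁ T = 0` (T-normal form of `φ`), `c₂ U = 0`, `c₂ S x = Q (S • x) - Q x` (U-potential of `ψ`),
and `ζ` the Heisenberg lift:
* `ζ T x = - c₁ S (T • x) * Q (S • T • x)`, `∑ x, ζ T x = ∑ x, c₁ S x * Q x`;
* `κ₀ γ := ζ γ base` satisfies `κ₀ (γ γ') = κ₀ γ + κ₀ γ' + ψ γ * φ γ'`;
* `κ₀ (r⁻¹ T^w r) = ∑ j < w, ζ T (T^j • r • base)` whenever `r⁻¹ T^w r ∈ Γ` (`ψ` parabolic).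
-/
import Fermat.Agent.S41.H33.Heis

set_option autoImplicit false

open scoped MatrixGroups
open ModularGroup ModularCurve.Period
open Fermat.Agent.S16.H97

namespace Fermat.Agent.S41.H33

noncomputable section

variable {Γ : Subgroup SL(2, ℤ)} {R : Type*} [CommRing R]

/-- A cocycle whose homomorphism is parabolic vanishes at `-1`. -/
theorem coc_neg_one_eq_zero (hneg : (-1 : SL(2, ℤ)) ∈ Γ) {c : SL(2, ℤ) → Cos Γ → R}
    (hc : IsCoc Γ c) (hpar : IsParabolicHom Γ (homOfCoc c hc)) (x : Cos Γ) : c (-1) x = 0 := by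
  have h1 := period_sum_eq hc (-1) 1 x (by rw [pow_one, neg_one_smul_cos hneg])
  rw [Finset.sum_range_one, pow_zero, one_smul] at h1
  rw [h1]
  apply hpar
  show ((rep Γ x)⁻¹ * (-1) ^ 1 * rep Γ x : SL(2, ℤ)).1.trace ^ 2 = 4
  have : (rep Γ x)⁻¹ * (-1) ^ 1 * rep Γ x = (-1 : SL(2, ℤ)) := by simp
  rw [this]
  simp

section zeta

variable {c₁ c₂ : SL(2, ℤ) → Cos Γ → R} {ζ : SL(2, ℤ) → Cos Γ → R} {Q : Cos Γ → R}

theorem zeta_one (h₁ : IsCoc Γ c₁)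
    (hζ : ∀ g h x, ζ (g * h) x = ζ g (h • x) + ζ h x + c₁ h x * c₂ g (h • x)) (x : Cos Γ) :
    ζ 1 x = 0 := by
  have h := hζ 1 1 x
  rw [mul_one, one_smul, h₁.one, zero_mul, add_zero] at h
  have h2 : ζ 1 x + 0 = ζ 1 x + ζ 1 x := by rw [add_zero]; exact h
  exact (add_left_cancel h2).symm

theorem zeta_S_inv (hneg : (-1 : SL(2, ℤ)) ∈ Γ) (h₁ : IsCoc Γ c₁) (h₂ : IsCoc Γ c₂)
    (hζ : ∀ g h x, ζ (g * h) x = ζ g (h • x) + ζ h x + c₁ h x * c₂ g (h • x))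
    (hζS : ∀ x, ζ S x = c₁ S x * Q (S • x)) (hQ : ∀ x, c₂ S x = Q (S • x) - Q x) (x : Cos Γ) :
    ζ S⁻¹ (S • x) = - (c₁ S x * Q x) := by
  have h := hζ S⁻¹ S x
  rw [inv_mul_cancel, zeta_one h₁ hζ, hζS, h₂.inv, inv_smul_smul, hQ] at h
  linear_combination -h

theorem zeta_T (hneg : (-1 : SL(2, ℤ)) ∈ Γ) (h₁ : IsCoc Γ c₁) (h₂ : IsCoc Γ c₂)
    (hζ : ∀ g h x, ζ (g * h) x = ζ g (h • x) + ζ h x + c₁ h x * c₂ g (h • x))
    (hζS : ∀ x, ζ S x = c₁ S x * Q (S • x)) (hζU : ζ U = 0)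
    (hQ : ∀ x, c₂ S x = Q (S • x) - Q x) (hT : c₁ T = 0) (x : Cos Γ) :
    ζ T x = - (c₁ S (T • x) * Q (S • T • x)) := by
  have hUx : U • x = S • T • x := mul_smul S T x
  have h := hζ S⁻¹ U x
  rw [← T_eq_S_inv_mul_U, hUx, zeta_S_inv hneg h₁ h₂ hζ hζS hQ, hζU, h₂.inv, inv_smul_smul,
    hQ] at h
  have h3 : c₁ U x = c₁ S (T • x) := by
    have := h₁.apply_T x
    rw [hT] at this
    exact (sub_eq_zero.mp this.symm)
  rw [h, h3]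
  simp only [Pi.zero_apply]
  ring

theorem sum_zeta_T [Fintype (Cos Γ)] (hneg : (-1 : SL(2, ℤ)) ∈ Γ) (h₁ : IsCoc Γ c₁)
    (h₂ : IsCoc Γ c₂)
    (hζ : ∀ g h x, ζ (g * h) x = ζ g (h • x) + ζ h x + c₁ h x * c₂ g (h • x))
    (hζS : ∀ x, ζ S x = c₁ S x * Q (S • x)) (hζU : ζ U = 0)
    (hQ : ∀ x, c₂ S x = Q (S • x) - Q x) (hT : c₁ T = 0) (h₁neg : ∀ x, c₁ (-1) x = 0) :
    ∑ x, ζ T x = ∑ x, c₁ S x * Q x := by
  have hSS : ∀ x : Cos Γ, c₁ S (S • x) = - c₁ S x := by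
    intro x
    have := h₁ S S x
    rw [S_mul_S, h₁neg] at this
    linear_combination -this
  calc ∑ x, ζ T x = ∑ x, - (c₁ S (T • x) * Q (S • T • x)) :=
        Finset.sum_congr rfl fun x _ => zeta_T hneg h₁ h₂ hζ hζS hζU hQ hT x
    _ = ∑ y, - (c₁ S y * Q (S • y)) :=
        Equiv.sum_comp (MulAction.toPerm T) (fun y : Cos Γ => - (c₁ S y * Q (S • y)))
    _ = ∑ z, - (c₁ S (S • z) * Q (S • S • z)) :=
        (Equiv.sum_comp (MulAction.toPerm S) (fun y : Cos Γ => - (c₁ S y * Q (S • y)))).symm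
    _ = ∑ z, c₁ S z * Q z := by
        refine Finset.sum_congr rfl fun z _ => ?_
        rw [S_smul_S_smul hneg, hSS]
        ring

theorem zeta_T_pow (h₁ : IsCoc Γ c₁)
    (hζ : ∀ g h x, ζ (g * h) x = ζ g (h • x) + ζ h x + c₁ h x * c₂ g (h • x))
    (hT : c₁ T = 0) (n : ℕ) (x : Cos Γ) :
    ζ (T ^ n) x = ∑ j ∈ Finset.range n, ζ T (T ^ j • x) := by
  induction n generalizing x with
  | zero => simp [zeta_one h₁ hζ]
  | succ n ih =>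
    rw [pow_succ, hζ, ih, hT, Finset.sum_range_succ', pow_zero, one_smul]
    simp only [Pi.zero_apply, zero_mul, add_zero]
    congr 1
    refine Finset.sum_congr rfl fun i _ => ?_
    rw [pow_succ, mul_smul]

theorem coc_T_pow_eq_zero (h₁ : IsCoc Γ c₁) (hT : c₁ T = 0) (n : ℕ) (x : Cos Γ) :
    c₁ (T ^ n) x = 0 := by
  rw [h₁.pow, hT]
  simp

theorem zeta_conj_T_pow (h₁ : IsCoc Γ c₁) (h₂ : IsCoc Γ c₂)
    (hζ : ∀ g h x, ζ (g * h) x = ζ g (h • x) + ζ h x + c₁ h x * c₂ g (h • x))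
    (hT : c₁ T = 0) (r : SL(2, ℤ)) (w : ℕ) (hx : T ^ w • r • base Γ = r • base Γ) :
    ζ (r⁻¹ * T ^ w * r) (base Γ) =
      ζ (T ^ w) (r • base Γ) + c₁ r (base Γ) * c₂ (T ^ w) (r • base Γ) := by
  have e1 := hζ r⁻¹ (T ^ w * r) (base Γ)
  have e2 := hζ (T ^ w) r (base Γ)
  have e3 := hζ r⁻¹ r (base Γ)
  have e4 := h₁ (T ^ w) r (base Γ)
  rw [coc_T_pow_eq_zero h₁ hT, zero_add] at e4
  rw [inv_mul_cancel, zeta_one h₁ hζ] at e3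
  rw [mul_smul, hx, e2, e4] at e1
  rw [mul_assoc, e1]
  linear_combination -e3

end zeta

/-- **The Heisenberg primitive** `κ₀` attached to a T-normal form `c₁` and a U-potential
`(c₂, Q)`, with its evaluation at the conjugates of powers of `T`. -/
theorem exists_kappa0 [Fintype (Cos Γ)] (hneg : (-1 : SL(2, ℤ)) ∈ Γ)
    {c₁ c₂ : SL(2, ℤ) → Cos Γ → R} (h₁ : IsCoc Γ c₁) (h₂ : IsCoc Γ c₂) (hT : c₁ T = 0)
    (h₁par : IsParabolicHom Γ (homOfCoc c₁ h₁)) (hU : c₂ U = 0) (Q : Cos Γ → R)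
    (hQ : ∀ x, c₂ S x = Q (S • x) - Q x) (h₂par : IsParabolicHom Γ (homOfCoc c₂ h₂)) :
    ∃ (κ : Γ → R) (ζT : Cos Γ → R),
      (∀ γ γ' : Γ, κ (γ * γ') = κ γ + κ γ' +
        homOfCoc c₂ h₂ (Additive.ofMul γ) * homOfCoc c₁ h₁ (Additive.ofMul γ')) ∧
      (∑ x, ζT x = ∑ x, c₁ S x * Q x) ∧
      (∀ (r : SL(2, ℤ)) (w : ℕ) (h : r⁻¹ * T ^ w * r ∈ Γ),
        κ ⟨r⁻¹ * T ^ w * r, h⟩ = ∑ j ∈ Finset.range w, ζT (T ^ j • r • base Γ)) := by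
  have h₁neg : ∀ x, c₁ (-1) x = 0 := coc_neg_one_eq_zero hneg h₁ h₁par
  obtain ⟨ζ, hζ, hζS, hζU⟩ := exists_zeta hneg h₁ h₂ h₁neg hU Q hQ
  refine ⟨fun γ => ζ (γ : SL(2, ℤ)) (base Γ), ζ T, ?_, ?_, ?_⟩
  · intro γ γ'
    show ζ ((γ : SL(2, ℤ)) * (γ' : SL(2, ℤ))) (base Γ) = _
    rw [hζ, smul_base_of_mem γ'.2, homOfCoc_apply, homOfCoc_apply]
    ring
  · exact sum_zeta_T hneg h₁ h₂ hζ hζS hζU hQ hT h₁neg
  · intro r w h
    have hx : T ^ w • r • base Γ = r • base Γ := by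
      have := smul_base_of_mem h
      rw [mul_smul, mul_smul, inv_smul_eq_iff] at this
      exact this
    show ζ (r⁻¹ * T ^ w * r) (base Γ) = _
    rw [zeta_conj_T_pow h₁ h₂ hζ hT r w hx, zeta_T_pow h₁ hζ hT]
    have h5 : c₂ (T ^ w) (r • base Γ) = 0 := by
      rw [← homOfCoc_conj c₂ h₂ (T ^ w) r h]
      apply h₂par
      show (r⁻¹ * T ^ w * r : SL(2, ℤ)).1.trace ^ 2 = 4
      rw [trace_conj_T_pow]
      norm_num
    rw [h5, mul_zero, add_zero]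

end

end Fermat.Agent.S41.H33
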