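/-
S41 (level raising), PAIR package (helper33), leaf PAIR-DEF: the integral pairing.

For `Γ ≤ SL(2,ℤ)` of finite index with `-1 ∈ Γ` and `φ, ψ : Γ → ℤ` parabolic:
  `pairZ Γ φ ψ = ∑ x, P x * Q x`,
`P = c₁ S` for a T-normal form `c₁` of `φ`, `Q` a U-potential of `ψ` (`IsTNorm`, `IsUPot`).
* `sum_kappa_eq` (UNIFORM INTRINSIC): for `m` with `T ^ m` trivial on `Cos Γ` and ANY `κ : Γ → ℤ`
  with `κ (γ γ') = κ γ + κ γ' + ψ γ * φ γ'`: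
  `∑ x, κ ((rep x)⁻¹ T^m rep x) = m * ∑ x, P x * Q x`.
* `pairZ_eq_dot`: independence of the choices; `pairZ_add_left/right`; `pairZ_skew`.
-/
import Fermat.Agent.S41.H33.Kappa0

set_option autoImplicit false

open scoped MatrixGroups
open ModularGroup ModularCurve.Period
open Fermat.Agent.S16.H97

namespace Fermat.Agent.S41.H33

noncomputable section

variable (Γ : Subgroup SL(2, ℤ))

/-- `P` is the `S`-value of a T-normal form of `φ`. -/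
def IsTNorm (φ : Additive Γ →+ ℤ) (P : Cos Γ → ℤ) : Prop :=
  ∃ (c : SL(2, ℤ) → Cos Γ → ℤ) (hc : IsCoc Γ c), c T = 0 ∧ homOfCoc c hc = φ ∧ c S = P

/-- `Q` is a U-potential of `ψ`. -/
def IsUPot (ψ : Additive Γ →+ ℤ) (Q : Cos Γ → ℤ) : Prop :=
  ∃ (c : SL(2, ℤ) → Cos Γ → ℤ) (hc : IsCoc Γ c),
    c U = 0 ∧ (∀ x, c S x = Q (S • x) - Q x) ∧ homOfCoc c hc = ψ

variable {Γ}

theorem exists_isTNorm [Finite (Cos Γ)] (φ : Additive Γ →+ ℤ) (hφ : IsParabolicHom Γ φ) :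
    ∃ P, IsTNorm Γ φ P := by
  obtain ⟨c, hc, hT, h⟩ := exists_Tnorm φ hφ
  exact ⟨c S, c, hc, hT, h, rfl⟩

theorem exists_isUPot [Finite (Cos Γ)] (ψ : Additive Γ →+ ℤ) : ∃ Q, IsUPot Γ ψ Q := by
  obtain ⟨c, hc, Q, hU, hQ, h⟩ := exists_Upot ψ (map_eq_zero_of_isOfFinOrder ψ)
  exact ⟨Q, c, hc, hU, hQ, h⟩

variable (Γ) in
/-- **The integral pairing** on integer-valued (parabolic) homomorphisms of `Γ`. -/
def pairZ [Fintype (Cos Γ)] (φ ψ : Additive Γ →+ ℤ) : ℤ :=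
  ∑ x, Classical.epsilon (IsTNorm Γ φ) x * Classical.epsilon (IsUPot Γ ψ) x

theorem exists_period_T [Finite (Cos Γ)] : ∃ m : ℕ, 0 < m ∧ ∀ x : Cos Γ, T ^ m • x = x := by
  refine ⟨orderOf (MulAction.toPerm T : Equiv.Perm (Cos Γ)), (isOfFinOrder_of_finite _).orderOf_pos,
    fun x => ?_⟩
  rw [← toPerm_pow_apply, pow_orderOf_eq_one]
  rfl

/-- For a homomorphism `χ : Γ → ℤ`, the sum over all cosets of the values at the conjugates of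
`T ^ m` vanishes. -/
theorem sum_hom_conj_T_pow [Fintype (Cos Γ)] (χ : Additive Γ →+ ℤ) (m : ℕ)
    (hm : ∀ x : Cos Γ, T ^ m • x = x) :
    ∑ x : Cos Γ, χ (Additive.ofMul ⟨(rep Γ x)⁻¹ * T ^ m * rep Γ x,
      conj_mem_of_smul_eq (T ^ m) x (hm x)⟩) = 0 := by
  rw [← (cocOf_isCoc χ).sum_eq_zero (T ^ m)]
  refine Finset.sum_congr rfl fun x _ => ?_
  rw [cocOf_of_smul_eq χ _ x (hm x), ext_of_mem χ (conj_mem_of_smul_eq (T ^ m) x (hm x))]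

/-- **UNIFORM INTRINSIC characterisation.** -/
theorem sum_kappa_eq [Fintype (Cos Γ)] (hneg : (-1 : SL(2, ℤ)) ∈ Γ) {φ ψ : Additive Γ →+ ℤ}
    (hφ : IsParabolicHom Γ φ) (hψ : IsParabolicHom Γ ψ) {P Q : Cos Γ → ℤ}
    (hP : IsTNorm Γ φ P) (hQ : IsUPot Γ ψ Q) (κ : Γ → ℤ)
    (hκ : ∀ γ γ' : Γ, κ (γ * γ') = κ γ + κ γ' + ψ (Additive.ofMul γ) * φ (Additive.ofMul γ'))
    (m : ℕ) (hm : ∀ x : Cos Γ, T ^ m • x = x) :
    ∑ x : Cos Γ, κ ⟨(rep Γ x)⁻¹ * T ^ m * rep Γ x, conj_mem_of_smul_eq (T ^ m) x (hm x)⟩ =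
      m * ∑ x, P x * Q x := by
  obtain ⟨c₁, h₁, hT, rfl, rfl⟩ := hP
  obtain ⟨c₂, h₂, hU, hQ', rfl⟩ := hQ
  obtain ⟨κ₀, ζT, hκ₀, hsum, heval⟩ := exists_kappa0 hneg h₁ h₂ hT hφ hU Q hQ' hψ
  -- the difference is a homomorphism
  let χ : Additive Γ →+ ℤ := AddMonoidHom.mk' (fun γ => κ (Additive.toMul γ) - κ₀ (Additive.toMul γ))
    (by
      intro a b
      show κ (Additive.toMul a * Additive.toMul b) - κ₀ (Additive.toMul a * Additive.toMul b) = _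
      rw [hκ, hκ₀]
      ring)
  have hχ := sum_hom_conj_T_pow χ m hm
  have h0 : ∑ x : Cos Γ, κ₀ ⟨(rep Γ x)⁻¹ * T ^ m * rep Γ x,
      conj_mem_of_smul_eq (T ^ m) x (hm x)⟩ = m * ∑ x, c₁ S x * Q x := by
    rw [← hsum]
    have e : ∀ x : Cos Γ, κ₀ ⟨(rep Γ x)⁻¹ * T ^ m * rep Γ x,
        conj_mem_of_smul_eq (T ^ m) x (hm x)⟩ = ∑ j ∈ Finset.range m, ζT (T ^ j • x) := by
      intro x
      rw [heval (rep Γ x) m, rep_smul_base]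
    rw [Finset.sum_congr rfl fun x _ => e x, Finset.sum_comm]
    have e2 : ∀ j ∈ Finset.range m, ∑ x : Cos Γ, ζT (T ^ j • x) = ∑ x, ζT x := fun j _ =>
      Equiv.sum_comp (MulAction.toPerm (T ^ j)) ζT
    rw [Finset.sum_congr rfl e2, Finset.sum_const, Finset.card_range, nsmul_eq_mul]
  have h1 : ∀ x : Cos Γ, κ ⟨(rep Γ x)⁻¹ * T ^ m * rep Γ x,
      conj_mem_of_smul_eq (T ^ m) x (hm x)⟩ =
      κ₀ ⟨(rep Γ x)⁻¹ * T ^ m * rep Γ x, conj_mem_of_smul_eq (T ^ m) x (hm x)⟩ +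
      χ (Additive.ofMul ⟨(rep Γ x)⁻¹ * T ^ m * rep Γ x,
        conj_mem_of_smul_eq (T ^ m) x (hm x)⟩) := by
    intro x
    have e : χ (Additive.ofMul ⟨(rep Γ x)⁻¹ * T ^ m * rep Γ x,
        conj_mem_of_smul_eq (T ^ m) x (hm x)⟩) =
        κ ⟨(rep Γ x)⁻¹ * T ^ m * rep Γ x, conj_mem_of_smul_eq (T ^ m) x (hm x)⟩ -
        κ₀ ⟨(rep Γ x)⁻¹ * T ^ m * rep Γ x, conj_mem_of_smul_eq (T ^ m) x (hm x)⟩ := rfl
    rw [e]
    ring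
  rw [Finset.sum_congr rfl fun x _ => h1 x, Finset.sum_add_distrib, hχ, add_zero, h0]

/-- Existence of a primitive `κ` for a pair of parabolic classes. -/
theorem exists_kappa [Fintype (Cos Γ)] (hneg : (-1 : SL(2, ℤ)) ∈ Γ) {φ ψ : Additive Γ →+ ℤ}
    (hφ : IsParabolicHom Γ φ) (hψ : IsParabolicHom Γ ψ) :
    ∃ κ : Γ → ℤ, ∀ γ γ' : Γ,
      κ (γ * γ') = κ γ + κ γ' + ψ (Additive.ofMul γ) * φ (Additive.ofMul γ') := by
  obtain ⟨P, c₁, h₁, hT, rfl, rfl⟩ := exists_isTNorm φ hφ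
  obtain ⟨Q, c₂, h₂, hU, hQ', rfl⟩ := exists_isUPot ψ
  obtain ⟨κ₀, ζT, hκ₀, -, -⟩ := exists_kappa0 hneg h₁ h₂ hT hφ hU Q hQ' hψ
  exact ⟨κ₀, hκ₀⟩

/-- The coset formula does not depend on the choices. -/
theorem dot_eq_dot [Fintype (Cos Γ)] (hneg : (-1 : SL(2, ℤ)) ∈ Γ) {φ ψ : Additive Γ →+ ℤ}
    (hφ : IsParabolicHom Γ φ) (hψ : IsParabolicHom Γ ψ) {P Q P' Q' : Cos Γ → ℤ}
    (hP : IsTNorm Γ φ P) (hQ : IsUPot Γ ψ Q) (hP' : IsTNorm Γ φ P') (hQ' : IsUPot Γ ψ Q') :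
    ∑ x, P x * Q x = ∑ x, P' x * Q' x := by
  obtain ⟨κ, hκ⟩ := exists_kappa hneg hφ hψ
  obtain ⟨m, hm0, hm⟩ := exists_period_T (Γ := Γ)
  have e1 := sum_kappa_eq hneg hφ hψ hP hQ κ hκ m hm
  have e2 := sum_kappa_eq hneg hφ hψ hP' hQ' κ hκ m hm
  have hm' : (m : ℤ) ≠ 0 := by exact_mod_cast hm0.ne'
  exact mul_left_cancel₀ hm' (e1.symm.trans e2)

/-- **The pairing is computed by any T-normal form and any U-potential.** -/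
theorem pairZ_eq_dot [Fintype (Cos Γ)] (hneg : (-1 : SL(2, ℤ)) ∈ Γ) {φ ψ : Additive Γ →+ ℤ}
    (hφ : IsParabolicHom Γ φ) (hψ : IsParabolicHom Γ ψ) {P Q : Cos Γ → ℤ}
    (hP : IsTNorm Γ φ P) (hQ : IsUPot Γ ψ Q) : pairZ Γ φ ψ = ∑ x, P x * Q x :=
  dot_eq_dot hneg hφ hψ (Classical.epsilon_spec (exists_isTNorm φ hφ))
    (Classical.epsilon_spec (exists_isUPot ψ)) hP hQ

/-- **UNIFORM INTRINSIC characterisation of `pairZ`.** -/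
theorem sum_kappa_eq_pairZ [Fintype (Cos Γ)] (hneg : (-1 : SL(2, ℤ)) ∈ Γ)
    {φ ψ : Additive Γ →+ ℤ} (hφ : IsParabolicHom Γ φ) (hψ : IsParabolicHom Γ ψ) (κ : Γ → ℤ)
    (hκ : ∀ γ γ' : Γ, κ (γ * γ') = κ γ + κ γ' + ψ (Additive.ofMul γ) * φ (Additive.ofMul γ'))
    (m : ℕ) (hm : ∀ x : Cos Γ, T ^ m • x = x) :
    ∑ x : Cos Γ, κ ⟨(rep Γ x)⁻¹ * T ^ m * rep Γ x, conj_mem_of_smul_eq (T ^ m) x (hm x)⟩ =
      m * pairZ Γ φ ψ := by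
  obtain ⟨P, hP⟩ := exists_isTNorm φ hφ
  obtain ⟨Q, hQ⟩ := exists_isUPot ψ
  rw [pairZ_eq_dot hneg hφ hψ hP hQ]
  exact sum_kappa_eq hneg hφ hψ hP hQ κ hκ m hm

theorem isCoc_add {A : Type*} [AddCommGroup A] {c c' : SL(2, ℤ) → Cos Γ → A} (hc : IsCoc Γ c)
    (hc' : IsCoc Γ c') : IsCoc Γ (fun g x => c g x + c' g x) := by
  intro g h x
  simp only [hc g h x, hc' g h x]
  abel

theorem homOfCoc_add {A : Type*} [AddCommGroup A] {c c' : SL(2, ℤ) → Cos Γ → A} (hc : IsCoc Γ c)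
    (hc' : IsCoc Γ c') :
    homOfCoc (fun g x => c g x + c' g x) (isCoc_add hc hc') = homOfCoc c hc + homOfCoc c' hc' :=
  rfl

theorem IsTNorm.add {φ φ' : Additive Γ →+ ℤ} {P P' : Cos Γ → ℤ} (h : IsTNorm Γ φ P)
    (h' : IsTNorm Γ φ' P') : IsTNorm Γ (φ + φ') (P + P') := by
  obtain ⟨c, hc, hT, rfl, rfl⟩ := h
  obtain ⟨c', hc', hT', rfl, rfl⟩ := h'
  refine ⟨_, isCoc_add hc hc', ?_, homOfCoc_add hc hc', rfl⟩
  funext x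
  simp [hT, hT']

theorem IsUPot.add {ψ ψ' : Additive Γ →+ ℤ} {Q Q' : Cos Γ → ℤ} (h : IsUPot Γ ψ Q)
    (h' : IsUPot Γ ψ' Q') : IsUPot Γ (ψ + ψ') (Q + Q') := by
  obtain ⟨c, hc, hU, hQ, rfl⟩ := h
  obtain ⟨c', hc', hU', hQ', rfl⟩ := h'
  refine ⟨_, isCoc_add hc hc', ?_, fun x => ?_, homOfCoc_add hc hc'⟩
  · funext x
    simp [hU, hU']
  · simp only [hQ x, hQ' x, Pi.add_apply]
    ring

theorem isParabolicHom_add {φ φ' : Additive Γ →+ ℤ} (h : IsParabolicHom Γ φ)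
    (h' : IsParabolicHom Γ φ') : IsParabolicHom Γ (φ + φ') := by
  intro γ hγ
  rw [AddMonoidHom.add_apply, h γ hγ, h' γ hγ, add_zero]

theorem pairZ_add_left [Fintype (Cos Γ)] (hneg : (-1 : SL(2, ℤ)) ∈ Γ) {φ φ' ψ : Additive Γ →+ ℤ}
    (hφ : IsParabolicHom Γ φ) (hφ' : IsParabolicHom Γ φ') (hψ : IsParabolicHom Γ ψ) :
    pairZ Γ (φ + φ') ψ = pairZ Γ φ ψ + pairZ Γ φ' ψ := by
  obtain ⟨P, hP⟩ := exists_isTNorm φ hφ
  obtain ⟨P', hP'⟩ := exists_isTNorm φ' hφ'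
  obtain ⟨Q, hQ⟩ := exists_isUPot ψ
  rw [pairZ_eq_dot hneg (isParabolicHom_add hφ hφ') hψ (hP.add hP') hQ,
    pairZ_eq_dot hneg hφ hψ hP hQ, pairZ_eq_dot hneg hφ' hψ hP' hQ, ← Finset.sum_add_distrib]
  refine Finset.sum_congr rfl fun x _ => ?_
  simp only [Pi.add_apply]
  ring

theorem pairZ_add_right [Fintype (Cos Γ)] (hneg : (-1 : SL(2, ℤ)) ∈ Γ) {φ ψ ψ' : Additive Γ →+ ℤ}
    (hφ : IsParabolicHom Γ φ) (hψ : IsParabolicHom Γ ψ) (hψ' : IsParabolicHom Γ ψ') :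
    pairZ Γ φ (ψ + ψ') = pairZ Γ φ ψ + pairZ Γ φ ψ' := by
  obtain ⟨P, hP⟩ := exists_isTNorm φ hφ
  obtain ⟨Q, hQ⟩ := exists_isUPot ψ
  obtain ⟨Q', hQ'⟩ := exists_isUPot ψ'
  rw [pairZ_eq_dot hneg hφ (isParabolicHom_add hψ hψ') hP (hQ.add hQ'),
    pairZ_eq_dot hneg hφ hψ hP hQ, pairZ_eq_dot hneg hφ hψ' hP hQ', ← Finset.sum_add_distrib]
  refine Finset.sum_congr rfl fun x _ => ?_
  simp only [Pi.add_apply]
  ring

/-- **The pairing is skew-symmetric.** -/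
theorem pairZ_skew [Fintype (Cos Γ)] (hneg : (-1 : SL(2, ℤ)) ∈ Γ) {φ ψ : Additive Γ →+ ℤ}
    (hφ : IsParabolicHom Γ φ) (hψ : IsParabolicHom Γ ψ) : pairZ Γ ψ φ = - pairZ Γ φ ψ := by
  obtain ⟨κ, hκ⟩ := exists_kappa hneg hφ hψ
  obtain ⟨m, hm0, hm⟩ := exists_period_T (Γ := Γ)
  have e1 := sum_kappa_eq_pairZ hneg hφ hψ κ hκ m hm
  have e2 := sum_kappa_eq_pairZ hneg hψ hφ
    (fun γ => φ (Additive.ofMul γ) * ψ (Additive.ofMul γ) - κ γ) (by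
      intro γ γ'
      rw [hκ, ofMul_mul, map_add, map_add]
      ring) m hm
  have e3 : ∀ x : Cos Γ,
      φ (Additive.ofMul ⟨(rep Γ x)⁻¹ * T ^ m * rep Γ x, conj_mem_of_smul_eq (T ^ m) x (hm x)⟩) =
        0 := by
    intro x
    apply hφ
    show ((rep Γ x)⁻¹ * T ^ m * rep Γ x : SL(2, ℤ)).1.trace ^ 2 = 4
    rw [trace_conj_T_pow]
    norm_num
  simp only [e3, zero_mul, zero_sub, Finset.sum_neg_distrib] at e2
  rw [e1] at e2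
  have hm' : (m : ℤ) ≠ 0 := by exact_mod_cast hm0.ne'
  apply mul_left_cancel₀ hm'
  rw [← e2]
  ring

end

end Fermat.Agent.S41.H33
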