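/-
S41 (level raising), PAIR package (helper33): PERF for the integral pairing `pairZ`
(corollary of the landed `S41.H79.perf_core`): for every prime `p`, if `p ∣ pairZ Γ φ ψ` for all
parabolic `ψ`, then `φ = p • φ'` with `φ'` parabolic.
-/
import Fermat.Agent.S41.H33.Pairing
import Fermat.Agent.S41.H79.Perf

set_option autoImplicit false

open scoped MatrixGroups
open ModularGroup ModularCurve.Period
open Fermat.Agent.S16.H97

namespace Fermat.Agent.S41.H33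

variable {Γ : Subgroup SL(2, ℤ)}

/-- **PERF**: `pairZ` is left-nondegenerate modulo every prime. -/
theorem pairZ_perf [Fintype (Cos Γ)] (hneg : (-1 : SL(2, ℤ)) ∈ Γ) (p : ℕ) (hp : p.Prime)
    {φ : Additive Γ →+ ℤ} (hφ : IsParabolicHom Γ φ)
    (h : ∀ ψ : Additive Γ →+ ℤ, IsParabolicHom Γ ψ → (p : ℤ) ∣ pairZ Γ φ ψ) :
    ∃ φ' : Additive Γ →+ ℤ, IsParabolicHom Γ φ' ∧ φ = p • φ' := by
  obtain ⟨c₁, hc₁, hT, rfl⟩ := exists_Tnorm φ hφ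
  refine Fermat.Agent.S41.H79.perf_core hneg p hp c₁ hc₁ hT (fun c₂ hc₂ Q hU hS hpar => ?_)
  rw [← pairZ_eq_dot hneg hφ hpar ⟨c₁, hc₁, hT, rfl, rfl⟩ ⟨c₂, hc₂, hU, hS, rfl⟩]
  exact h _ hpar

/-- PERF on the right (by skew-symmetry). -/
theorem pairZ_perf_right [Fintype (Cos Γ)] (hneg : (-1 : SL(2, ℤ)) ∈ Γ) (p : ℕ) (hp : p.Prime)
    {ψ : Additive Γ →+ ℤ} (hψ : IsParabolicHom Γ ψ)
    (h : ∀ φ : Additive Γ →+ ℤ, IsParabolicHom Γ φ → (p : ℤ) ∣ pairZ Γ φ ψ) :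
    ∃ ψ' : Additive Γ →+ ℤ, IsParabolicHom Γ ψ' ∧ ψ = p • ψ' := by
  refine pairZ_perf hneg p hp hψ (fun φ hφ => ?_)
  rw [pairZ_skew hneg hφ hψ]
  exact (dvd_neg).mpr (h φ hφ)

end Fermat.Agent.S41.H33
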