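/-
S41 (level raising), PAIR package (helper33): PAIR-OUT, unconditional.

`pairStatement` proves `Fermat.Agent.S41.H40.PairStatement p N q l₀` (the leaf (PAIR) exactly as
the top assembly `Fermat.Agent.S41.H40.s41_of_pair` consumes it) for every prime `p`, every level
`N > 0`, every prime `q ∤ N` and every prime `l₀ ∤ N`.

The integral pairing at level `M` is `pairLevel M = pairZ (Gamma0 M)` (landed `H33/Pairing.lean`);
the inputs of the conditional assembly `Fermat.Agent.S41.H14.pairStatement_of` are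
* biadditivity, skew-symmetry: `pairZ_add_left`, `pairZ_add_right`, `pairZ_skew`;
* (PERF): `pairZ_perf` (`H33/Perf.lean`, from `H79.perf_core`);
* (ADJ) `i = 1, 2`: `Fermat.Agent.S41.H99.pairZ_alpha1_beta1`, `pairZ_alpha2_beta2`;
* `beta1 ∘ alpha2 = T_{l₀} = beta2 ∘ alpha1`: `Fermat.Agent.S41.H15.beta1_alpha2`, `beta2_alpha1`.
-/
import Mathlib
import Fermat.Agent.S41.H33.Perf
import Fermat.Agent.S41.H14.PairOut
import Fermat.Agent.S41.H99.AdjGamma0
import Fermat.Agent.S41.H15.BetaAlpha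
import Fermat.Agent.S41.H40.Spec

set_option autoImplicit false

open CongruenceSubgroup ModularCurve ModularCurve.Period
open scoped MatrixGroups
open Fermat.Agent.S16.H97 (Cos)
open Fermat.Agent.S16.H75 (heckeHom)
open Fermat.Agent.S41.H41 (alpha1 alpha2 beta1 beta2)

namespace Fermat.Agent.S41.H33

/-- The coset space of `Γ₀(M)`, `M > 0`, is finite. -/
noncomputable def fintypeCosGamma0 (M : ℕ) (hM : 0 < M) : Fintype (Cos (Gamma0 M)) :=
  haveI : NeZero M := ⟨hM.ne'⟩
  Subgroup.fintypeQuotientOfFiniteIndex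

/-- The integral pairing at level `M` (zero at the meaningless level `M = 0`). -/
noncomputable def pairLevel (M : ℕ) (φ ψ : Additive (Gamma0 M) →+ ℤ) : ℤ :=
  if h : 0 < M then @pairZ (Gamma0 M) (fintypeCosGamma0 M h) φ ψ else 0

theorem pairLevel_eq {M : ℕ} (hM : 0 < M) [inst : Fintype (Cos (Gamma0 M))]
    (φ ψ : Additive (Gamma0 M) →+ ℤ) : pairLevel M φ ψ = pairZ (Gamma0 M) φ ψ := by
  have e : fintypeCosGamma0 M hM = inst := Subsingleton.elim _ _
  rw [pairLevel, dif_pos hM, e]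

/-- **PAIR-OUT**: the leaf (PAIR) of the S41 assembly, unconditionally. -/
theorem pairStatement {p N q : ℕ} (l₀ : Nat.Primes) (hp : p.Prime) (hN : 0 < N) (hq : q.Prime)
    (hqN : ¬ q ∣ N) (hl₀N : ¬ (l₀ : ℕ) ∣ N) :
    Fermat.Agent.S41.H40.PairStatement p N q l₀ := by
  refine Fermat.Agent.S41.H14.pairStatement_of hN hq hqN hl₀N pairLevel ?_ ?_ ?_ ?_ ?_ ?_ ?_ ?_
  · intro M hM φ φ' ψ hφ hφ' hψ
    haveI := fintypeCosGamma0 M hM
    rw [pairLevel_eq hM, pairLevel_eq hM, pairLevel_eq hM]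
    exact pairZ_add_left (Fermat.Agent.S41.H99.neg_one_mem_Gamma0_aux M) hφ hφ' hψ
  · intro M hM φ ψ ψ' hφ hψ hψ'
    haveI := fintypeCosGamma0 M hM
    rw [pairLevel_eq hM, pairLevel_eq hM, pairLevel_eq hM]
    exact pairZ_add_right (Fermat.Agent.S41.H99.neg_one_mem_Gamma0_aux M) hφ hψ hψ'
  · intro M hM φ ψ hφ hψ
    haveI := fintypeCosGamma0 M hM
    rw [pairLevel_eq hM, pairLevel_eq hM]
    exact pairZ_skew (Fermat.Agent.S41.H99.neg_one_mem_Gamma0_aux M) hφ hψ
  · intro M hM φ hφ h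
    haveI := fintypeCosGamma0 M hM
    refine pairZ_perf (Fermat.Agent.S41.H99.neg_one_mem_Gamma0_aux M) p hp hφ (fun ψ hψ => ?_)
    have := h ψ hψ
    rwa [pairLevel_eq hM] at this
  · intro r hr hrN x u hx hu
    haveI := fintypeCosGamma0 N hN
    haveI := fintypeCosGamma0 (N * r) (Nat.mul_pos hN hr.pos)
    rw [pairLevel_eq (Nat.mul_pos hN hr.pos), pairLevel_eq hN]
    exact Fermat.Agent.S41.H99.pairZ_alpha1_beta1 hr hrN hx hu
  · intro r hr hrN x u hx hu
    haveI := fintypeCosGamma0 N hN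
    haveI := fintypeCosGamma0 (N * r) (Nat.mul_pos hN hr.pos)
    rw [pairLevel_eq (Nat.mul_pos hN hr.pos), pairLevel_eq hN]
    exact Fermat.Agent.S41.H99.pairZ_alpha2_beta2 hr hrN hx hu
  · intro φ _
    exact Fermat.Agent.S41.H15.beta1_alpha2 l₀.2 hl₀N φ
  · intro φ _
    exact Fermat.Agent.S41.H15.beta2_alpha1 l₀.2 hl₀N φ

end Fermat.Agent.S41.H33
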