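/-
S41 (level raising), PAIR package (helper33), leaf (S3): the INTRINSIC theorem in cusp-system form.

For `Γ` of finite index with `-1 ∈ Γ`, `φ, ψ : Γ → ℤ` parabolic, ANY `κ : Γ → ℤ` with
`κ (g h) = κ g + κ h + φ g * ψ h` and ANY cusp system `c : J → SL(2,ℤ)` of `Γ`
(`S41.H62.IsCuspSystem`):   `pairZ Γ φ ψ = - ∑ j, κ (c j)`.
Also `exists_kappa'` (existence of such a `κ`).
-/
import Fermat.Agent.S41.H33.Pairing
import Fermat.Agent.S41.H62.CuspOrbit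

set_option autoImplicit false

open scoped MatrixGroups
open ModularGroup ModularCurve.Period
open Fermat.Agent.S16.H97
open Fermat.Agent.S41.H62

namespace Fermat.Agent.S41.H33

noncomputable section

variable {Γ : Subgroup SL(2, ℤ)}

theorem map_eq_zero_of_isPPP {φ : Additive Γ →+ ℤ} (hφ : IsParabolicHom Γ φ) (g : Γ)
    (hg : IsPPP Γ (g : SL(2, ℤ))) : φ (Additive.ofMul g) = 0 := by
  apply hφ
  obtain ⟨-, h, w, -, hgw, -⟩ := hg
  show (g : SL(2, ℤ)).1.trace ^ 2 = 4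
  rw [hgw, trace_conj_T_pow]
  norm_num

/-- A primitive `κ` is invariant under conjugation at elements killed by `φ` and `ψ`. -/
theorem kappa_conj_eq {φ ψ : Additive Γ →+ ℤ} {κ : Γ → ℤ}
    (hκ : ∀ g h : Γ, κ (g * h) = κ g + κ h + φ (Additive.ofMul g) * ψ (Additive.ofMul h))
    (g s : Γ) (h1 : φ (Additive.ofMul g) = 0) (h2 : ψ (Additive.ofMul g) = 0) :
    κ (s * g * s⁻¹) = κ g := by
  have e1 : κ 1 = 0 := by
    have := hκ 1 1
    rw [mul_one, ofMul_one, map_zero, zero_mul, add_zero] at this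
    linarith
  have e2 := hκ s s⁻¹
  rw [mul_inv_cancel, e1, ofMul_inv, map_neg] at e2
  have e3 := hκ (s * g) s⁻¹
  rw [ofMul_mul, map_add, h1, ofMul_inv, map_neg] at e3
  have e4 := hκ s g
  rw [h2] at e4
  rw [e3, e4]
  linear_combination -e2

/-- Existence of a primitive for `(φ, ψ)` (in this order). -/
theorem exists_kappa' [Fintype (Cos Γ)] (hneg : (-1 : SL(2, ℤ)) ∈ Γ) {φ ψ : Additive Γ →+ ℤ}
    (hφ : IsParabolicHom Γ φ) (hψ : IsParabolicHom Γ ψ) :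
    ∃ κ : Γ → ℤ, ∀ g h : Γ,
      κ (g * h) = κ g + κ h + φ (Additive.ofMul g) * ψ (Additive.ofMul h) :=
  exists_kappa hneg hψ hφ

/-- **The INTRINSIC theorem** (cusp-system form). -/
theorem pairZ_eq_neg_sum [Fintype (Cos Γ)] (hneg : (-1 : SL(2, ℤ)) ∈ Γ) {φ ψ : Additive Γ →+ ℤ}
    (hφ : IsParabolicHom Γ φ) (hψ : IsParabolicHom Γ ψ) (κ : Γ → ℤ)
    (hκ : ∀ g h : Γ, κ (g * h) = κ g + κ h + φ (Additive.ofMul g) * ψ (Additive.ofMul h))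
    {J : Type*} [Fintype J] {c : J → SL(2, ℤ)} (hc : IsCuspSystem Γ c) :
    pairZ Γ φ ψ = - ∑ j, κ ⟨c j, (hc.1 j).mem⟩ := by
  obtain ⟨P, hP⟩ := exists_isTNorm φ hφ
  obtain ⟨Q, hQ⟩ := exists_isUPot ψ
  rw [pairZ_eq_dot hneg hφ hψ hP hQ]
  obtain ⟨c₁, h₁, hT, rfl, rfl⟩ := hP
  obtain ⟨c₂, h₂, hU, hQ', rfl⟩ := hQ
  obtain ⟨κ₀, ζT, hκ₀, hsum, heval⟩ := exists_kappa0 hneg h₁ h₂ hT hφ hU Q hQ' hψ
  obtain ⟨J₀, hJ₀, h, w, H⟩ := exists_isOrbitSection Γ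
  have hc₀ := H.isCuspSystem hneg
  have e1 := H.sum_kappa_eq κ₀ ζT heval
  -- the difference of the two primitives for `(ψ, φ)` is a homomorphism
  let χ : Additive Γ →+ ℤ := AddMonoidHom.mk'
    (fun γ => (homOfCoc c₁ h₁ γ * homOfCoc c₂ h₂ γ - κ (Additive.toMul γ)) -
      κ₀ (Additive.toMul γ))
    (by
      intro a b
      show (homOfCoc c₁ h₁ (a + b) * homOfCoc c₂ h₂ (a + b) -
        κ (Additive.toMul a * Additive.toMul b)) - κ₀ (Additive.toMul a * Additive.toMul b) = _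
      rw [hκ, hκ₀, map_add, map_add]
      simp only [ofMul_toMul]
      ring)
  have e2 := H.sum_hom_eq_zero χ
  have e3 : ∀ j, χ (Additive.ofMul ⟨(h j)⁻¹ * T ^ w j * h j, H.mem j⟩) =
      - κ ⟨(h j)⁻¹ * T ^ w j * h j, H.mem j⟩ - κ₀ ⟨(h j)⁻¹ * T ^ w j * h j, H.mem j⟩ := by
    intro j
    have hz : homOfCoc c₁ h₁ (Additive.ofMul ⟨(h j)⁻¹ * T ^ w j * h j, H.mem j⟩) = 0 :=
      map_eq_zero_of_isPPP hφ _ (hc₀.1 j)
    show (homOfCoc c₁ h₁ (Additive.ofMul ⟨(h j)⁻¹ * T ^ w j * h j, H.mem j⟩) *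
      homOfCoc c₂ h₂ (Additive.ofMul ⟨(h j)⁻¹ * T ^ w j * h j, H.mem j⟩) -
      κ ⟨(h j)⁻¹ * T ^ w j * h j, H.mem j⟩) - κ₀ ⟨(h j)⁻¹ * T ^ w j * h j, H.mem j⟩ = _
    rw [hz]
    ring
  rw [Finset.sum_congr rfl fun j _ => e3 j, Finset.sum_sub_distrib, Finset.sum_neg_distrib,
    e1, hsum] at e2
  have e4 := hc₀.sum_eq_sum hc κ (fun g s hg =>
    kappa_conj_eq hκ g s (map_eq_zero_of_isPPP hφ g hg) (map_eq_zero_of_isPPP hψ g hg))
  rw [← e4]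
  linarith

end

end Fermat.Agent.S41.H33
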