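/-
S41 (level raising), PAIR package (helper33), leaf PAIR-CONJ: conjugation invariance of `pairZ`.

If `θ : Γ₁ ≃* Γ₂` is induced by an integer matrix `D` of positive determinant
(`D * γ = θ γ * D`), then `pairZ Γ₁ (φ ∘ θ) (ψ ∘ θ) = pairZ Γ₂ φ ψ` for parabolic `φ, ψ : Γ₂ → ℤ`.
Proof: INTRINSIC theorem on both sides + `S41.H62.IsCuspSystem.map_of_intertwine`.
-/
import Fermat.Agent.S41.H33.Intrinsic

set_option autoImplicit false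

open scoped MatrixGroups
open ModularGroup ModularCurve.Period
open Fermat.Agent.S16.H97
open Fermat.Agent.S41.H62

namespace Fermat.Agent.S41.H33

noncomputable section

theorem trace_eq_of_intertwine {D g g' : Matrix (Fin 2) (Fin 2) ℤ} (hD : D.det ≠ 0)
    (H : D * g = g' * D) : g.trace = g'.trace := by
  have h1 : (D * g * D.adjugate).trace = (g' * D * D.adjugate).trace := by rw [H]
  rw [Matrix.trace_mul_comm, ← Matrix.mul_assoc, Matrix.adjugate_mul, Matrix.smul_mul,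
    Matrix.one_mul, Matrix.trace_smul, Matrix.mul_assoc, Matrix.mul_adjugate, Matrix.mul_smul,
    Matrix.mul_one, Matrix.trace_smul] at h1
  exact mul_left_cancel₀ hD h1

variable {Γ₁ Γ₂ : Subgroup SL(2, ℤ)}

/-- Pull-back of a homomorphism along a group isomorphism. -/
def pullHom (θ : Γ₁ ≃* Γ₂) (φ : Additive Γ₂ →+ ℤ) : Additive Γ₁ →+ ℤ :=
  φ.comp (MonoidHom.toAdditive θ.toMonoidHom)

theorem pullHom_apply (θ : Γ₁ ≃* Γ₂) (φ : Additive Γ₂ →+ ℤ) (γ : Γ₁) :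
    pullHom θ φ (Additive.ofMul γ) = φ (Additive.ofMul (θ γ)) := rfl

theorem isParabolicHom_pullHom (θ : Γ₁ ≃* Γ₂) {D : Matrix (Fin 2) (Fin 2) ℤ} (hD : D.det ≠ 0)
    (H : ∀ γ : Γ₁, D * ((γ : SL(2, ℤ)) : Matrix (Fin 2) (Fin 2) ℤ) =
      ((θ γ : SL(2, ℤ)) : Matrix (Fin 2) (Fin 2) ℤ) * D)
    {φ : Additive Γ₂ →+ ℤ} (hφ : IsParabolicHom Γ₂ φ) : IsParabolicHom Γ₁ (pullHom θ φ) := by
  intro γ hγ
  rw [pullHom_apply]
  apply hφ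
  rw [← trace_eq_of_intertwine hD (H γ)]
  exact hγ

/-- **Conjugation invariance of the integral pairing.** -/
theorem pairZ_conj [Fintype (Cos Γ₁)] [Fintype (Cos Γ₂)] (hneg₁ : (-1 : SL(2, ℤ)) ∈ Γ₁)
    (hneg₂ : (-1 : SL(2, ℤ)) ∈ Γ₂) (θ : Γ₁ ≃* Γ₂) {D : Matrix (Fin 2) (Fin 2) ℤ}
    (hD : 0 < D.det)
    (H : ∀ γ : Γ₁, D * ((γ : SL(2, ℤ)) : Matrix (Fin 2) (Fin 2) ℤ) =
      ((θ γ : SL(2, ℤ)) : Matrix (Fin 2) (Fin 2) ℤ) * D)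
    {φ ψ : Additive Γ₂ →+ ℤ} (hφ : IsParabolicHom Γ₂ φ) (hψ : IsParabolicHom Γ₂ ψ) :
    pairZ Γ₁ (pullHom θ φ) (pullHom θ ψ) = pairZ Γ₂ φ ψ := by
  obtain ⟨κ, hκ⟩ := exists_kappa' hneg₂ hφ hψ
  obtain ⟨J₀, hJ₀, h, w, Hs⟩ := exists_isOrbitSection Γ₁
  let c : J₀ → Γ₁ := fun j => ⟨(h j)⁻¹ * T ^ w j * h j, Hs.mem j⟩
  have hc₁ : IsCuspSystem Γ₁ (fun j => (c j : SL(2, ℤ))) := Hs.isCuspSystem hneg₁
  have hc₂ : IsCuspSystem Γ₂ (fun j => (θ (c j) : SL(2, ℤ))) := hc₁.map_of_intertwine θ hD H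
  rw [pairZ_eq_neg_sum hneg₁ (isParabolicHom_pullHom θ hD.ne' H hφ)
    (isParabolicHom_pullHom θ hD.ne' H hψ) (fun γ => κ (θ γ))
    (fun g h => by simp only [map_mul, hκ, pullHom_apply]) hc₁,
    pairZ_eq_neg_sum hneg₂ hφ hψ κ hκ hc₂]

end

end Fermat.Agent.S41.H33
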